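import Mathlib
import Fermat.Agent.S53.Schur

set_option autoImplicit false

/-!
# Two-dimensional representations from quadratic relations

`k` a field, `G` a group, `χ : G →* kˣ`, `ρ : G →* End_k W` such that every `g` satisfies
`ρ g + χ g • ρ g⁻¹ = t g • 1` (equivalently `ρ g ^ 2 - t g • ρ g + χ g = 0`).
If `W` is irreducible and `k` is algebraically closed then `dim W ≤ 2`.
-/

namespace Fermat.Agent.S29.Alg

open Module

section Quad

variable {k : Type*} [Field k] {G : Type*} [Group G] {W : Type*} [AddCommGroup W] [Module k W]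

/-- the cross identity `u_h ū_g + u_g ū_h = χ g * t (h g⁻¹)` -/
theorem cross_eq (ρ : G →* Module.End k W) (χ : G →* kˣ) (t : G → k)
    (hrel : ∀ g, ρ g + (χ g : k) • ρ g⁻¹ = t g • (1 : Module.End k W)) (g h : G) :
    ρ h * ((χ g : k) • ρ g⁻¹) + ρ g * ((χ h : k) • ρ h⁻¹)
      = ((χ g : k) * t (h * g⁻¹)) • (1 : Module.End k W) := by
  have h1 := hrel (h * g⁻¹)
  have h2 : (χ (h * g⁻¹) : k) = (χ h : k) * ((χ g : k))⁻¹ := by
    rw [map_mul, map_inv, Units.val_mul, Units.val_inv_eq_inv_val]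
  have hg0 : (χ g : k) ≠ 0 := (χ g).ne_zero
  have h3 : (h * g⁻¹)⁻¹ = g * h⁻¹ := by group
  rw [h3, h2] at h1
  rw [mul_smul_comm, mul_smul_comm, ← map_mul, ← map_mul, mul_smul, ← h1, smul_add, smul_smul]
  congr 2
  field_simp

/-- the scalar line of `End W` -/
theorem self_mul_conj (ρ : G →* Module.End k W) (χ : G →* kˣ) (g : G) :
    ρ g * ((χ g : k) • ρ g⁻¹) = (χ g : k) • (1 : Module.End k W) := by
  rw [mul_smul_comm, ← map_mul, mul_inv_cancel, map_one]

/-- Every linear combination `a = ∑ c_g ρ g` satisfies a quadratic relation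
`a (τ - a) = β` with scalars `τ, β`. -/
theorem quad_of_finsupp (ρ : G →* Module.End k W) (χ : G →* kˣ) (t : G → k)
    (hrel : ∀ g, ρ g + (χ g : k) • ρ g⁻¹ = t g • (1 : Module.End k W)) (c : G →₀ k) :
    ∃ τ : k, (∃ β : k, (c.sum fun g x => x • ρ g) * (τ • 1 - (c.sum fun g x => x • ρ g))
        = β • (1 : Module.End k W)) ∧
      ∀ g, ∃ s : k, (c.sum fun g x => x • ρ g) * ((χ g : k) • ρ g⁻¹)
        + ρ g * (τ • 1 - (c.sum fun g x => x • ρ g)) = s • (1 : Module.End k W) := by
  induction c using Finsupp.induction with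
  | zero =>
    refine ⟨0, ⟨0, by simp⟩, fun g => ⟨0, by simp⟩⟩
  | single_add h x f hh hx ih =>
    obtain ⟨τ, ⟨β, hβ⟩, hs⟩ := ih
    obtain ⟨s, hs'⟩ := hs h
    have hsum : ((Finsupp.single h x + f).sum fun g x => x • ρ g)
        = x • ρ h + (f.sum fun g x => x • ρ g) := by
      rw [Finsupp.sum_add_index' (by simp) (by intro a b₁ b₂; rw [add_smul]),
        Finsupp.sum_single_index (by simp)]
    set a := (f.sum fun g x => x • ρ g) with ha
    have hconj : ∀ g, t g • (1 : Module.End k W) - ρ g = (χ g : k) • ρ g⁻¹ := fun g => by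
      rw [← hrel g]; abel
    refine ⟨τ + x * t h, ⟨β + x * s + x * x * (χ h : k), ?_⟩, fun g => ?_⟩
    · rw [hsum]
      have e1 : (τ + x * t h) • (1 : Module.End k W) - (x • ρ h + a)
          = (τ • 1 - a) + x • ((χ h : k) • ρ h⁻¹) := by
        rw [← hconj h, add_smul, mul_smul]; simp only [smul_sub]; abel
      rw [e1, add_mul, mul_add, mul_add, hβ, smul_mul_assoc, smul_mul_assoc, mul_smul_comm,
        mul_smul_comm x, self_mul_conj, add_smul, add_smul, mul_smul, mul_smul, mul_smul,
        ← hs', smul_add]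
      abel
    · obtain ⟨sg, hsg⟩ := hs g
      refine ⟨sg + x * ((χ g : k) * t (h * g⁻¹)), ?_⟩
      rw [hsum]
      have e1 : (τ + x * t h) • (1 : Module.End k W) - (x • ρ h + a)
          = (τ • 1 - a) + x • ((χ h : k) • ρ h⁻¹) := by
        rw [← hconj h, add_smul, mul_smul]; simp only [smul_sub]; abel
      rw [e1, add_mul, mul_add, smul_mul_assoc, mul_smul_comm x, add_smul, mul_smul x,
        ← cross_eq ρ χ t hrel g h, ← hsg, smul_add]
      abel

/-- Every element of the span of the image satisfies a quadratic relation. -/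
theorem quad_of_mem_span (ρ : G →* Module.End k W) (χ : G →* kˣ) (t : G → k)
    (hrel : ∀ g, ρ g + (χ g : k) • ρ g⁻¹ = t g • (1 : Module.End k W))
    (a : Module.End k W) (ha : a ∈ Submodule.span k (Set.range ρ)) :
    ∃ τ β : k, a * (τ • 1 - a) = β • (1 : Module.End k W) := by
  rw [Finsupp.mem_span_range_iff_exists_finsupp] at ha
  obtain ⟨c, rfl⟩ := ha
  obtain ⟨τ, ⟨β, hβ⟩, -⟩ := quad_of_finsupp ρ χ t hrel c
  exact ⟨τ, β, hβ⟩

/-- **Dimension bound.** An irreducible representation over an algebraically closed field in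
which every group element satisfies `ρ g + χ g • ρ g⁻¹ ∈ k` has dimension at most two. -/
theorem finrank_le_two [IsAlgClosed k] [FiniteDimensional k W] [Nontrivial W]
    (ρ : G →* Module.End k W) (χ : G →* kˣ) (t : G → k)
    (hrel : ∀ g, ρ g + (χ g : k) • ρ g⁻¹ = t g • (1 : Module.End k W))
    (hirr : ∀ U : Submodule k W, (∀ g, ∀ x ∈ U, ρ g x ∈ U) → U = ⊥ ∨ U = ⊤) :
    Module.finrank k W ≤ 2 := by
  by_contra hcon
  push Not at hcon
  obtain ⟨e, he⟩ := exists_linearIndependent_of_le_finrank (R := k) (M := W) (n := 3) hcon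
  -- the algebra generated by the image
  set 𝒜 : Subalgebra k (Module.End k W) := Algebra.adjoin k (Set.range ρ) with h𝒜
  have hspan : (𝒜 : Set (Module.End k W)) = Submodule.span k (Set.range ρ) := by
    have h2 := Algebra.adjoin_eq_span k (Set.range ρ)
    have h3 : (Submonoid.closure (Set.range ρ) : Set (Module.End k W)) = Set.range ρ := by
      rw [← MonoidHom.coe_mrange, Submonoid.closure_eq]
    rw [h3] at h2
    rw [h𝒜, ← h2]; rfl
  have hirr' : ∀ U : Submodule k W, (∀ a ∈ 𝒜, ∀ x ∈ U, a x ∈ U) → U = ⊥ ∨ U = ⊤ :=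
    fun U hU => hirr U fun g x hx => hU (ρ g) (Algebra.subset_adjoin ⟨g, rfl⟩) x hx
  have hli := Fintype.linearIndependent_iff.mp he
  have h01 : ∀ c : k, e 0 ≠ c • e 1 := by
    intro c h
    have := hli ![1, -c, 0] (by simp [Fin.sum_univ_three, h]) 0
    simp at this
  have h10 : ∀ c : k, e 1 ≠ c • e 0 := by
    intro c h
    have := hli ![-c, 1, 0] (by simp [Fin.sum_univ_three, h]) 1
    simp at this
  obtain ⟨a1, ha1, ha1v, ha1w⟩ := Fermat.Agent.S53.Schur.exists_mem_apply_eq 𝒜 hirr'
    (e 1) (e 0) (he.ne_zero 1) h01 (e 1)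
  obtain ⟨a2, ha2, ha2v, ha2w⟩ := Fermat.Agent.S53.Schur.exists_mem_apply_eq 𝒜 hirr'
    (e 0) (e 1) (he.ne_zero 0) h10 (e 2)
  have hamem : a1 + a2 ∈ Submodule.span k (Set.range ρ) := by
    have : a1 + a2 ∈ (𝒜 : Set (Module.End k W)) := 𝒜.add_mem ha1 ha2
    rw [hspan] at this; exact this
  obtain ⟨τ, β, hq⟩ := quad_of_mem_span ρ χ t hrel (a1 + a2) hamem
  have h0 : (a1 + a2) (e 0) = e 1 := by simp [ha1w, ha2v]
  have h1 : (a1 + a2) (e 1) = e 2 := by simp [ha1v, ha2w]
  have := congrArg (fun f : Module.End k W => f (e 0)) hq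
  simp only [Module.End.mul_apply, LinearMap.sub_apply, LinearMap.smul_apply,
    Module.End.one_apply, h0, map_sub, map_smul, h1] at this
  have := hli ![-β, τ, -1] (by
    simp only [Fin.sum_univ_three, Matrix.cons_val_zero, Matrix.cons_val_one,
      Matrix.cons_val_two, Matrix.head_cons, Matrix.tail_cons]
    rw [neg_smul, neg_smul, one_smul, ← this]; abel) 2
  simp at this

/-- the quadratic relation in its usual form -/
theorem quad_rel (ρ : G →* Module.End k W) (χ : G →* kˣ) (t : G → k)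
    (hrel : ∀ g, ρ g + (χ g : k) • ρ g⁻¹ = t g • (1 : Module.End k W)) (g : G) :
    ρ g * ρ g - t g • ρ g + (χ g : k) • (1 : Module.End k W) = 0 := by
  have h := congrArg (fun f => ρ g * f) (hrel g)
  simp only [mul_add, mul_smul_comm, mul_one] at h
  have h1 : ρ g * ρ g⁻¹ = 1 := by rw [← map_mul, mul_inv_cancel, map_one]
  rw [h1] at h
  rw [← h]; abel

end Quad

section Two

open Polynomial

variable {k : Type*} [Field k] {G : Type*} [Group G] {W : Type*} [AddCommGroup W] [Module k W]
  [FiniteDimensional k W]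

theorem charpoly_of_finrank_two (hW : Module.finrank k W = 2) (f : Module.End k W) :
    LinearMap.charpoly f = X ^ 2 - C (LinearMap.trace k W f) * X + C (LinearMap.det f) := by
  let b : Module.Basis (Fin 2) k W := Module.finBasisOfFinrankEq k W hW
  rw [← LinearMap.charpoly_toMatrix f b, Matrix.charpoly_fin_two,
    ← LinearMap.trace_eq_matrix_trace k b f, LinearMap.det_toMatrix b f]

theorem cayley_two (hW : Module.finrank k W = 2) (f : Module.End k W) :
    f * f - (LinearMap.trace k W f) • f + (LinearMap.det f) • (1 : Module.End k W) = 0 := by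
  have h := LinearMap.aeval_self_charpoly f
  rw [charpoly_of_finrank_two hW f] at h
  simpa [sq, Algebra.smul_def] using h

theorem trace_det_of_not_scalar (hW : Module.finrank k W = 2) (f : Module.End k W) (τ β : k)
    (hq : f * f - τ • f + β • (1 : Module.End k W) = 0) (hns : ∀ c : k, f ≠ c • 1) :
    LinearMap.trace k W f = τ ∧ LinearMap.det f = β := by
  have : Nontrivial W := Module.nontrivial_of_finrank_eq_succ hW
  have hch := cayley_two hW f
  have h1 : (LinearMap.trace k W f - τ) • f = (LinearMap.det f - β) • (1 : Module.End k W) := by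
    have : f * f - τ • f + β • (1 : Module.End k W)
        = f * f - (LinearMap.trace k W f) • f + (LinearMap.det f) • (1 : Module.End k W) := by
      rw [hq, hch]
    rw [sub_smul, sub_smul]
    have h2 := sub_eq_zero.mpr this
    rw [← sub_eq_zero]
    rw [← h2]; abel
  have htr : LinearMap.trace k W f = τ := by
    by_contra hne
    have hne' : LinearMap.trace k W f - τ ≠ 0 := sub_ne_zero.mpr hne
    apply hns ((LinearMap.trace k W f - τ)⁻¹ * (LinearMap.det f - β))
    rw [mul_smul, ← h1, smul_smul, inv_mul_cancel₀ hne', one_smul]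
  refine ⟨htr, ?_⟩
  rw [htr, sub_self, zero_smul] at h1
  have h3 : (LinearMap.det f - β) = 0 := by
    by_contra hne
    have : (1 : Module.End k W) = 0 := by
      have := congrArg (fun x => (LinearMap.det f - β)⁻¹ • x) h1
      simpa [smul_smul, inv_mul_cancel₀ hne] using this.symm
    exact one_ne_zero this
  exact sub_eq_zero.mp h3

omit [FiniteDimensional k W] in
/-- In an irreducible two-dimensional representation some element acts as a non-scalar. -/
theorem exists_not_scalar (hW : Module.finrank k W = 2) (ρ : G →* Module.End k W)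
    (hirr : ∀ U : Submodule k W, (∀ g, ∀ x ∈ U, ρ g x ∈ U) → U = ⊥ ∨ U = ⊤) :
    ∃ h : G, ∀ c : k, ρ h ≠ c • (1 : Module.End k W) := by
  by_contra hcon
  push Not at hcon
  have : Nontrivial W := Module.nontrivial_of_finrank_eq_succ hW
  obtain ⟨v, hv⟩ := exists_ne (0 : W)
  have hinv : ∀ g, ∀ x ∈ Submodule.span k {v}, ρ g x ∈ Submodule.span k {v} := by
    intro g x hx
    obtain ⟨c, hc⟩ := hcon g
    rw [hc]
    simpa using Submodule.smul_mem _ c hx
  rcases hirr _ hinv with h | h
  · rw [Submodule.span_singleton_eq_bot] at h; exact hv h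
  · have h1 := finrank_span_singleton (K := k) hv
    rw [h, finrank_top, hW] at h1
    omega

/-- **Dimension two.** In an irreducible two-dimensional representation satisfying the
relations, the characteristic polynomial of every `ρ g` is `X² - t g X + χ g`. -/
theorem trace_det_of_finrank_two (hW : Module.finrank k W = 2)
    (ρ : G →* Module.End k W) (χ : G →* kˣ) (t : G → k)
    (hrel : ∀ g, ρ g + (χ g : k) • ρ g⁻¹ = t g • (1 : Module.End k W))
    (hirr : ∀ U : Submodule k W, (∀ g, ∀ x ∈ U, ρ g x ∈ U) → U = ⊥ ∨ U = ⊤) (g : G) :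
    LinearMap.trace k W (ρ g) = t g ∧ LinearMap.det (ρ g) = (χ g : k) := by
  have : Nontrivial W := Module.nontrivial_of_finrank_eq_succ hW
  have hone : (1 : Module.End k W) ≠ 0 := one_ne_zero
  by_cases hg : ∀ c : k, ρ g ≠ c • (1 : Module.End k W)
  · exact trace_det_of_not_scalar hW (ρ g) (t g) (χ g) (quad_rel ρ χ t hrel g) hg
  · push Not at hg
    obtain ⟨c, hc⟩ := hg
    obtain ⟨h, hh⟩ := exists_not_scalar hW ρ hirr
    have hinv : ρ g * ρ g⁻¹ = 1 := by rw [← map_mul, mul_inv_cancel, map_one]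
    have hc0 : c ≠ 0 := by
      rintro rfl
      rw [hc, zero_smul, zero_mul] at hinv
      exact hone hinv.symm
    have hginv : ρ g⁻¹ = c⁻¹ • (1 : Module.End k W) := by
      rw [hc, smul_mul_assoc, one_mul] at hinv
      rw [← hinv, smul_smul, inv_mul_cancel₀ hc0, one_smul]
    -- `g * h` is non-scalar
    have hgh : ∀ d : k, ρ (g * h) ≠ d • (1 : Module.End k W) := by
      intro d hd
      apply hh (c⁻¹ * d)
      rw [map_mul, hc, smul_mul_assoc, one_mul] at hd
      rw [mul_smul, ← hd, smul_smul, inv_mul_cancel₀ hc0, one_smul]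
    have h1 := (trace_det_of_not_scalar hW (ρ (g * h)) (t (g * h)) (χ (g * h))
      (quad_rel ρ χ t hrel (g * h)) hgh).2
    have h2 := (trace_det_of_not_scalar hW (ρ h) (t h) (χ h) (quad_rel ρ χ t hrel h) hh).2
    rw [map_mul, hc, smul_mul_assoc, one_mul, LinearMap.det_smul, hW, h2, map_mul,
      Units.val_mul] at h1
    have hχ : (χ g : k) = c ^ 2 := (mul_right_cancel₀ (χ h).ne_zero h1).symm
    have ht : t g = c + c := by
      have := hrel g
      rw [hc, hginv, hχ, smul_smul, ← add_smul] at this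
      have h3 : (c + c ^ 2 * c⁻¹ - t g) • (1 : Module.End k W) = 0 := by
        rw [sub_smul, this, sub_self]
      rcases smul_eq_zero.mp h3 with h4 | h4
      · have : c ^ 2 * c⁻¹ = c := by field_simp
        rw [this] at h4
        exact (sub_eq_zero.mp h4).symm
      · exact absurd h4 hone
    refine ⟨?_, ?_⟩
    · rw [hc, map_smul, LinearMap.trace_one, hW, ht]; simp; ring
    · rw [hc, LinearMap.det_smul, hW, map_one, mul_one, hχ]

theorem charpoly_of_finrank_two_of_rel (hW : Module.finrank k W = 2)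
    (ρ : G →* Module.End k W) (χ : G →* kˣ) (t : G → k)
    (hrel : ∀ g, ρ g + (χ g : k) • ρ g⁻¹ = t g • (1 : Module.End k W))
    (hirr : ∀ U : Submodule k W, (∀ g, ∀ x ∈ U, ρ g x ∈ U) → U = ⊥ ∨ U = ⊤) (g : G) :
    LinearMap.charpoly (ρ g) = X ^ 2 - C (t g) * X + C (χ g : k) := by
  obtain ⟨h1, h2⟩ := trace_det_of_finrank_two hW ρ χ t hrel hirr g
  rw [charpoly_of_finrank_two hW, h1, h2]

end Two

section Restrict

variable {k : Type*} [Field k] {G : Type*} [Group G] {V : Type*} [AddCommGroup V] [Module k V]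

/-- restriction of a representation to a stable subspace -/
def restrictRep (ρ : G →* Module.End k V) (U : Submodule k V)
    (hU : ∀ g, ∀ x ∈ U, ρ g x ∈ U) : G →* Module.End k U where
  toFun g := (ρ g).restrict (hU g)
  map_one' := by ext x; simp [LinearMap.restrict_apply]
  map_mul' g h := by ext x; simp [LinearMap.restrict_apply]

@[simp] theorem restrictRep_apply (ρ : G →* Module.End k V) (U : Submodule k V)
    (hU : ∀ g, ∀ x ∈ U, ρ g x ∈ U) (g : G) (x : U) :
    ((restrictRep ρ U hU g) x : V) = ρ g x := rfl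

theorem restrictRep_rel (ρ : G →* Module.End k V) (χ : G →* kˣ) (t : G → k)
    (hrel : ∀ g, ρ g + (χ g : k) • ρ g⁻¹ = t g • (1 : Module.End k V))
    (U : Submodule k V) (hU : ∀ g, ∀ x ∈ U, ρ g x ∈ U) (g : G) :
    restrictRep ρ U hU g + (χ g : k) • restrictRep ρ U hU g⁻¹
      = t g • (1 : Module.End k U) := by
  ext x
  have := congrArg (fun f : Module.End k V => f (x : V)) (hrel g)
  simpa using this

theorem restrictRep_eq_one (ρ : G →* Module.End k V) (U : Submodule k V)
    (hU : ∀ g, ∀ x ∈ U, ρ g x ∈ U) (g : G) (hg : ρ g = 1) : restrictRep ρ U hU g = 1 := by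
  ext x; simp [hg]

/-- a nonzero finite-dimensional representation contains a minimal nonzero stable subspace -/
theorem exists_minimal_stable [FiniteDimensional k V] [Nontrivial V] (ρ : G →* Module.End k V) :
    ∃ U : Submodule k V, U ≠ ⊥ ∧ (∀ g, ∀ x ∈ U, ρ g x ∈ U) ∧
      ∀ U' : Submodule k V, U' ≤ U → (∀ g, ∀ x ∈ U', ρ g x ∈ U') → U' = ⊥ ∨ U' = U := by
  let S : Set (Submodule k V) := {U | U ≠ ⊥ ∧ ∀ g, ∀ x ∈ U, ρ g x ∈ U}
  have hne : S.Nonempty := ⟨⊤, top_ne_bot, fun _ _ _ => Submodule.mem_top⟩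
  obtain ⟨U, hUS, hmin⟩ := (wellFounded_lt (α := Submodule k V)).has_min S hne
  refine ⟨U, hUS.1, hUS.2, fun U' hle hinv => ?_⟩
  by_cases h0 : U' = ⊥
  · exact Or.inl h0
  · right
    have := hmin U' ⟨h0, hinv⟩
    exact eq_of_le_of_not_lt hle this

theorem restrictRep_irreducible (ρ : G →* Module.End k V) (U : Submodule k V)
    (hU : ∀ g, ∀ x ∈ U, ρ g x ∈ U)
    (hmin : ∀ U' : Submodule k V, U' ≤ U → (∀ g, ∀ x ∈ U', ρ g x ∈ U') → U' = ⊥ ∨ U' = U)
    (U'' : Submodule k U) (hinv : ∀ g, ∀ x ∈ U'', restrictRep ρ U hU g x ∈ U'') :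
    U'' = ⊥ ∨ U'' = ⊤ := by
  have h1 : U''.map U.subtype ≤ U := Submodule.map_subtype_le U U''
  have h2 : ∀ g, ∀ x ∈ U''.map U.subtype, ρ g x ∈ U''.map U.subtype := by
    rintro g _ ⟨x, hx, rfl⟩
    exact ⟨restrictRep ρ U hU g x, hinv g x hx, rfl⟩
  rcases hmin _ h1 h2 with h | h
  · left
    rw [Submodule.eq_bot_iff]
    intro x hx
    have : (x : V) ∈ U''.map U.subtype := ⟨x, hx, rfl⟩
    rw [h, Submodule.mem_bot] at this
    exact Subtype.ext this
  · right
    rw [eq_top_iff]
    rintro ⟨x, hx⟩ -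
    have hx' : x ∈ U''.map U.subtype := by rw [h]; exact hx
    obtain ⟨y, hy, hyx⟩ := hx'
    have : y = ⟨x, hx⟩ := Subtype.ext hyx
    rwa [this] at hy

end Restrict

section One

open Polynomial

variable {k : Type*} [Field k] {G : Type*} [Group G] {W : Type*} [AddCommGroup W] [Module k W]

theorem exists_eq_smul_one_of_finrank_one (hW : Module.finrank k W = 1) (f : Module.End k W) :
    ∃ c : k, f = c • (1 : Module.End k W) := by
  have : Nontrivial W := Module.nontrivial_of_finrank_eq_succ hW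
  obtain ⟨v, hv⟩ := exists_ne (0 : W)
  have h := (finrank_eq_one_iff_of_nonzero' v hv).mp hW
  obtain ⟨c, hc⟩ := h (f v)
  refine ⟨c, LinearMap.ext fun w => ?_⟩
  obtain ⟨d, rfl⟩ := h w
  rw [map_smul, ← hc, LinearMap.smul_apply, Module.End.one_apply, smul_comm]

/-- The one-dimensional case: `ψ ⊕ χ ψ⁻¹`. -/
theorem exists_rep_of_finrank_one (hW : Module.finrank k W = 1)
    (ρ : G →* Module.End k W) (χ : G →* kˣ) (t : G → k)
    (hrel : ∀ g, ρ g + (χ g : k) • ρ g⁻¹ = t g • (1 : Module.End k W)) :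
    ∃ ρ' : G →* Module.End k (Fin 2 → k),
      (∀ g, LinearMap.charpoly (ρ' g) = X ^ 2 - C (t g) * X + C (χ g : k)) ∧
      (∀ g, ρ g = 1 → χ g = 1 → ρ' g = 1) := by
  have : Nontrivial W := Module.nontrivial_of_finrank_eq_succ hW
  have hone : (1 : Module.End k W) ≠ 0 := one_ne_zero
  have hinj : ∀ a b : k, a • (1 : Module.End k W) = b • 1 → a = b := fun a b h =>
    smul_left_injective k hone h
  choose ψ hψ using fun g => exists_eq_smul_one_of_finrank_one hW (ρ g)
  have hψ1 : ψ 1 = 1 := hinj _ _ (by rw [← hψ, map_one, one_smul])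
  have hψmul : ∀ g h, ψ (g * h) = ψ g * ψ h := fun g h => hinj _ _ (by
    rw [← hψ, map_mul, hψ g, hψ h, smul_mul_assoc, one_mul, smul_smul])
  have hψinv : ∀ g, ψ g * ψ g⁻¹ = 1 := fun g => by rw [← hψmul, mul_inv_cancel, hψ1]
  have hψ0 : ∀ g, ψ g ≠ 0 := fun g h => by simpa [h] using hψinv g
  have hψinv' : ∀ g, ψ g⁻¹ = (ψ g)⁻¹ := fun g => eq_inv_of_mul_eq_one_right (hψinv g)
  have ht : ∀ g, t g = ψ g + (χ g : k) * (ψ g)⁻¹ := fun g => hinj _ _ (by
    rw [← hrel g, hψ g, hψ g⁻¹, hψinv', smul_smul, add_smul])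
  let D : G → Matrix (Fin 2) (Fin 2) k := fun g =>
    Matrix.diagonal ![ψ g, (χ g : k) * (ψ g)⁻¹]
  have hD1 : D 1 = 1 := by
    ext i j; fin_cases i <;> fin_cases j <;> simp [D, hψ1]
  have hDmul : ∀ g h, D (g * h) = D g * D h := by
    intro g h
    simp only [D, Matrix.diagonal_mul_diagonal]
    congr 1
    ext i; fin_cases i
    · simp [hψmul]
    · simp [hψmul]; ring
  refine ⟨{ toFun := fun g => Matrix.toLin' (D g)
            map_one' := by rw [hD1, Matrix.toLin'_one]; rfl
            map_mul' := fun g h => by rw [hDmul, Matrix.toLin'_mul]; rfl }, fun g => ?_,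
    fun g hg hχ => ?_⟩
  · show LinearMap.charpoly (Matrix.toLin' (D g)) = _
    rw [Matrix.charpoly_toLin', Matrix.charpoly_diagonal, Fin.prod_univ_two, ht g]
    simp only [Matrix.cons_val_zero, Matrix.cons_val_one]
    have hab : ψ g * ((χ g : k) * (ψ g)⁻¹) = (χ g : k) := by
      field_simp [hψ0 g]
    have key : ∀ a b : k, (X - C a) * (X - C b) = X ^ 2 - C (a + b) * X + C (a * b) := by
      intro a b; simp only [map_add, map_mul]; ring
    rw [key, hab]
  · show Matrix.toLin' (D g) = 1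
    have h1 : ψ g = 1 := hinj _ _ (by rw [← hψ, hg, one_smul])
    have : D g = 1 := by
      ext i j; fin_cases i <;> fin_cases j <;> simp [D, h1, hχ]
    rw [this, Matrix.toLin'_one]; rfl

end One

section Junction

open Polynomial

variable {k : Type*} [Field k] [IsAlgClosed k] {G : Type*} [Group G]
  {V : Type*} [AddCommGroup V] [Module k V] [FiniteDimensional k V] [Nontrivial V]

/-- **Main theorem (all elements).** If every `g` satisfies `ρ g + χ g • ρ g⁻¹ = t g` on a nonzero
finite-dimensional `V` over an algebraically closed field, there is a two-dimensional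
representation with characteristic polynomials `X² - t g X + χ g`, trivial wherever `ρ` and `χ`
are trivial. -/
theorem exists_rep_two (ρ : G →* Module.End k V) (χ : G →* kˣ) (t : G → k)
    (hrel : ∀ g, ρ g + (χ g : k) • ρ g⁻¹ = t g • (1 : Module.End k V)) :
    ∃ ρ' : G →* Module.End k (Fin 2 → k),
      (∀ g, LinearMap.charpoly (ρ' g) = X ^ 2 - C (t g) * X + C (χ g : k)) ∧
      (∀ g, ρ g = 1 → χ g = 1 → ρ' g = 1) := by
  obtain ⟨U, hU0, hUinv, hUmin⟩ := exists_minimal_stable ρ
  have hrelU := restrictRep_rel ρ χ t hrel U hUinv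
  have hirrU := restrictRep_irreducible ρ U hUinv hUmin
  have hnt : Nontrivial U := Submodule.nontrivial_iff_ne_bot.mpr hU0
  have hle := finrank_le_two (restrictRep ρ U hUinv) χ t hrelU hirrU
  have hpos : 0 < Module.finrank k U := Module.finrank_pos
  have h12 : Module.finrank k U = 1 ∨ Module.finrank k U = 2 := by omega
  rcases h12 with h1 | h2
  · obtain ⟨ρ', h1', h2'⟩ := exists_rep_of_finrank_one h1 (restrictRep ρ U hUinv) χ t hrelU
    exact ⟨ρ', h1', fun g hg hχ => h2' g (restrictRep_eq_one ρ U hUinv g hg) hχ⟩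
  · let e : U ≃ₗ[k] (Fin 2 → k) := (Module.finBasisOfFinrankEq k U h2).equivFun
    refine ⟨(e.conjRingEquiv : Module.End k U →* Module.End k (Fin 2 → k)).comp
      (restrictRep ρ U hUinv), fun g => ?_, fun g hg _ => ?_⟩
    · have : ((e.conjRingEquiv : Module.End k U →* Module.End k (Fin 2 → k)).comp
          (restrictRep ρ U hUinv)) g = e.conj (restrictRep ρ U hUinv g) := rfl
      rw [this, LinearEquiv.charpoly_conj]
      exact charpoly_of_finrank_two_of_rel h2 _ χ t hrelU hirrU g
    · rw [MonoidHom.comp_apply, restrictRep_eq_one ρ U hUinv g hg, map_one]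

omit [IsAlgClosed k] [FiniteDimensional k V] [Nontrivial V] in
/-- **Power trick.** A quadratic relation for `u` with constant term `c` gives one for `u ^ n`
with constant term `c ^ n`. -/
theorem pow_rel (u : Module.End k V) (τ c : k)
    (h : u * u - τ • u + c • (1 : Module.End k V) = 0) (n : ℕ) :
    ∃ τn : k, u ^ n * u ^ n - τn • u ^ n + (c ^ n) • (1 : Module.End k V) = 0 := by
  set v : Module.End k V := τ • 1 - u with hv
  have huv : u * v = c • 1 := by
    rw [hv, mul_sub, mul_smul_comm, mul_one, eq_comm, ← sub_eq_zero, ← h]; abel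
  have hcomm : Commute u v := by
    rw [hv]
    exact ((Commute.one_right u).smul_right τ).sub_right (Commute.refl u)
  have hsum : ∀ n : ℕ, (∃ p : k, u ^ n + v ^ n = p • (1 : Module.End k V)) ∧
      ∃ q : k, u ^ (n + 1) + v ^ (n + 1) = q • (1 : Module.End k V) := by
    intro n
    induction n with
    | zero =>
      refine ⟨⟨2, by simp [two_smul]⟩, ⟨τ, by simp [hv]⟩⟩
    | succ n ih =>
      obtain ⟨⟨p, hp⟩, ⟨q, hq⟩⟩ := ih
      refine ⟨⟨q, hq⟩, ⟨τ * q - c * p, ?_⟩⟩
      have h1 : u + v = τ • (1 : Module.End k V) := by rw [hv]; abel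
      have hvu : v * u = c • 1 := by rw [← hcomm.eq, huv]
      have e : u ^ (n + 1 + 1) + v ^ (n + 1 + 1)
          = (u ^ (n + 1) + v ^ (n + 1)) * (u + v) - (u ^ n + v ^ n) * (c • 1) := by
        rw [← huv]
        have h2 : v ^ (n + 1) * u = v ^ n * (u * v) := by
          rw [pow_succ, mul_assoc, hvu, huv]
        have h3 : u ^ (n + 1) * v = u ^ n * (u * v) := by
          rw [pow_succ, mul_assoc]
        rw [add_mul, mul_add, mul_add, h2, h3, add_mul, pow_succ u (n + 1), pow_succ v (n + 1)]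
        abel
      rw [e, hq, hp, h1, smul_mul_smul_comm, smul_mul_smul_comm, one_mul, ← sub_smul]
      congr 1; ring
  obtain ⟨⟨p, hp⟩, -⟩ := hsum n
  refine ⟨p, ?_⟩
  have h4 : u ^ n * v ^ n = (c ^ n) • (1 : Module.End k V) := by
    rw [← hcomm.mul_pow, huv, _root_.smul_pow, one_pow]
  have h5 : p • u ^ n = u ^ n * u ^ n + (c ^ n) • (1 : Module.End k V) := by
    have h6 : p • u ^ n = (p • (1 : Module.End k V)) * u ^ n := by
      rw [smul_mul_assoc, one_mul]
    rw [h6, ← hp, add_mul, ← h4, (hcomm.pow_pow n n).eq]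
  rw [h5]; abel

/-- **Main theorem (Frobenius form).** `S` is a set of group elements ("Frobenii") each of which
satisfies `ρ s ^ 2 - t s • ρ s + χ s = 0` on `V`, and every `g` is, as far as `ρ` and `χ` see it,
a power of some `s ∈ S` (weak Chebotarev).  Then there is a two-dimensional representation `ρ'`
with `charpoly (ρ' s) = X² - t s X + χ s` for every `s ∈ S`, trivial wherever `ρ` and `χ` are. -/
theorem exists_rep_two_of_generators (ρ : G →* Module.End k V) (χ : G →* kˣ) (S : Set G)
    (t : G → k)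
    (hS : ∀ s ∈ S, ρ s * ρ s - t s • ρ s + (χ s : k) • (1 : Module.End k V) = 0)
    (hpow : ∀ g, ∃ s ∈ S, ∃ n : ℕ, ρ g = ρ s ^ n ∧ χ g = χ s ^ n) :
    ∃ ρ' : G →* Module.End k (Fin 2 → k),
      (∀ s ∈ S, LinearMap.charpoly (ρ' s) = X ^ 2 - C (t s) * X + C (χ s : k)) ∧
      (∀ g, ρ g = 1 → χ g = 1 → ρ' g = 1) := by
  have hone : (1 : Module.End k V) ≠ 0 := one_ne_zero
  have hinv : ∀ g, ρ g * ρ g⁻¹ = 1 := fun g => by rw [← map_mul, mul_inv_cancel, map_one]
  have hquad : ∀ g, ∃ τ : k, ρ g * ρ g - τ • ρ g + (χ g : k) • (1 : Module.End k V) = 0 := by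
    intro g
    obtain ⟨s, hs, n, h1, h2⟩ := hpow g
    obtain ⟨τ, hτ⟩ := pow_rel (ρ s) (t s) (χ s) (hS s hs) n
    refine ⟨τ, ?_⟩
    rw [h1, h2, Units.val_pow_eq_pow_val]
    exact hτ
  choose t' ht' using hquad
  have hrel : ∀ g, ρ g + (χ g : k) • ρ g⁻¹ = t' g • (1 : Module.End k V) := by
    intro g
    have := congrArg (fun f => f * ρ g⁻¹) (ht' g)
    simp only [add_mul, sub_mul, mul_assoc, hinv, mul_one, smul_mul_assoc, one_mul,
      zero_mul] at this
    rw [← sub_eq_zero, ← this]; abel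
  obtain ⟨ρ', h1, h2⟩ := exists_rep_two ρ χ t' hrel
  refine ⟨ρ', fun s hs => ?_, h2⟩
  have hts : t' s = t s := by
    have e : (t' s - t s) • ρ s = 0 := by
      rw [sub_smul]
      have := (ht' s).trans (hS s hs).symm
      have h3 : t' s • ρ s = t s • ρ s := by
        have h4 := sub_eq_zero.mpr this
        rw [← sub_eq_zero, ← neg_eq_zero, ← h4]; abel
      rw [h3, sub_self]
    have e2 := congrArg (fun f => f * ρ s⁻¹) e
    simp only [smul_mul_assoc, hinv, zero_mul] at e2
    rcases smul_eq_zero.mp e2 with h | h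
    · exact sub_eq_zero.mp h
    · exact absurd h hone
  rw [h1 s, hts]

end Junction

end Fermat.Agent.S29.Alg
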