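import Mathlib

/-!
# S29 (R-core C11): residue fields of `ℤ̄ = integralClosure ℤ ℂ` are algebraically closed

* `mem_of_isIntegral` : `ℤ̄` is integrally closed in `ℂ`;
* `exists_root_of_monic` : a monic non-constant polynomial over `ℤ̄` has a root in `ℤ̄`;
* `isAlgClosed_quotient` : `ℤ̄ ⧸ 𝔪` is algebraically closed for every maximal ideal `𝔪`;
* `ker_isMaximal` : the kernel of `φ : ℤ̄ →+* k`, `k` a field of characteristic `p > 0`, is maximal;
* `iota φ : ℤ̄ ⧸ ker φ →+* k` (injective, `iota φ (mk a) = φ a`), `charP_quotient`;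
* `exists_residue_field` : the packaged form used by the assembly of S29.
-/

set_option autoImplicit false
set_option linter.style.haveILetI false

namespace Fermat.Agent.S29.Alg.ResidueAlgClosed

open Polynomial

local notation "Zb" => integralClosure ℤ ℂ

/-- `ℤ̄` is integrally closed in `ℂ`. -/
theorem mem_of_isIntegral {z : ℂ} (hz : IsIntegral Zb z) : z ∈ Zb :=
  isIntegral_trans (R := ℤ) (A := Zb) z hz

/-- a monic non-constant polynomial over `ℤ̄` has a root in `ℤ̄`. -/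
theorem exists_root_of_monic {f : Zb[X]} (hf : f.Monic) (hdeg : f.degree ≠ 0) :
    ∃ a : Zb, f.eval a = 0 := by
  have hmap : (f.map (algebraMap Zb ℂ)).degree ≠ 0 := by
    rwa [hf.degree_map]
  obtain ⟨z, hz⟩ := IsAlgClosed.exists_root (f.map (algebraMap Zb ℂ)) hmap
  have hz' : eval₂ (algebraMap Zb ℂ) z f = 0 := by
    rw [eval₂_eq_eval_map]
    exact hz
  have hint : IsIntegral Zb z := ⟨f, hf, hz'⟩
  refine ⟨⟨z, mem_of_isIntegral hint⟩, ?_⟩
  have hinj : Function.Injective (algebraMap Zb ℂ) := Subtype.val_injective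
  apply hinj
  rw [map_zero, ← eval₂_at_apply]
  exact hz'

section quotient

variable (𝔪 : Ideal Zb) [h𝔪 : 𝔪.IsMaximal]

/-- **`ℤ̄ ⧸ 𝔪` is algebraically closed.** -/
theorem isAlgClosed_quotient :
    letI : Field (Zb ⧸ 𝔪) := Ideal.Quotient.field 𝔪
    IsAlgClosed (Zb ⧸ 𝔪) := by
  letI : Field (Zb ⧸ 𝔪) := Ideal.Quotient.field 𝔪
  refine IsAlgClosed.of_exists_root _ (fun g hg hirr => ?_)
  have hlift : g ∈ lifts (Ideal.Quotient.mk 𝔪) := by
    rw [mem_lifts]
    exact map_surjective _ Ideal.Quotient.mk_surjective g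
  obtain ⟨f, hfmap, hfdeg, hfmonic⟩ := lifts_and_degree_eq_and_monic hlift hg
  have hdeg : f.degree ≠ 0 := by
    rw [hfdeg]
    exact (degree_pos_of_irreducible hirr).ne'
  obtain ⟨a, ha⟩ := exists_root_of_monic hfmonic hdeg
  refine ⟨Ideal.Quotient.mk 𝔪 a, ?_⟩
  rw [← hfmap, eval_map, eval₂_at_apply, ha, map_zero]

/-- the characteristic of `ℤ̄ ⧸ 𝔪` is `p` when `p ∈ 𝔪`. -/
theorem charP_quotient {p : ℕ} (hp : p.Prime) (hp𝔪 : (p : Zb) ∈ 𝔪) : CharP (Zb ⧸ 𝔪) p := by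
  letI : Field (Zb ⧸ 𝔪) := Ideal.Quotient.field 𝔪
  have h0 : ((p : ℕ) : Zb ⧸ 𝔪) = 0 := by
    have h1 : ((p : ℕ) : Zb ⧸ 𝔪) = Ideal.Quotient.mk 𝔪 ((p : ℕ) : Zb) := by
      rw [map_natCast]
    rw [h1]
    exact Ideal.Quotient.eq_zero_iff_mem.mpr hp𝔪
  have hdvd : ringChar (Zb ⧸ 𝔪) ∣ p := (ringChar.spec _ p).mp h0
  rcases (Nat.dvd_prime hp).mp hdvd with h1 | h1
  · exfalso
    have : CharP (Zb ⧸ 𝔪) 1 := h1 ▸ ringChar.charP _
    exact CharP.char_ne_one (Zb ⧸ 𝔪) 1 rfl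
  · exact h1 ▸ ringChar.charP _

end quotient

section ker

variable {k : Type*} [Field k] {p : ℕ}

theorem natCast_mem_ker [CharP k p] (φ : Zb →+* k) : (p : Zb) ∈ RingHom.ker φ := by
  rw [RingHom.mem_ker, map_natCast]
  exact CharP.cast_eq_zero k p

/-- **the kernel of `φ : ℤ̄ →+* k` is a maximal ideal** (`k` of characteristic `p > 0`). -/
theorem ker_isMaximal (hp : p.Prime) [CharP k p] (φ : Zb →+* k) : (RingHom.ker φ).IsMaximal := by
  haveI : (RingHom.ker φ).IsPrime := RingHom.ker_isPrime φ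
  refine Ideal.isMaximal_of_isIntegral_of_isMaximal_comap (R := ℤ) (RingHom.ker φ) ?_
  have hprime : ((RingHom.ker φ).comap (algebraMap ℤ Zb)).IsPrime := Ideal.comap_isPrime _ _
  refine hprime.isMaximal ?_
  intro hbot
  have hmem : (p : ℤ) ∈ (RingHom.ker φ).comap (algebraMap ℤ Zb) := by
    rw [Ideal.mem_comap, map_natCast]
    exact natCast_mem_ker φ
  rw [hbot, Ideal.mem_bot] at hmem
  exact hp.ne_zero (by exact_mod_cast hmem)

/-- the embedding of the residue field `ℤ̄ ⧸ ker φ` into `k`. -/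
noncomputable def iota (φ : Zb →+* k) : Zb ⧸ RingHom.ker φ →+* k := RingHom.kerLift φ

@[simp] theorem iota_mk (φ : Zb →+* k) (a : Zb) : iota φ (Ideal.Quotient.mk _ a) = φ a :=
  RingHom.kerLift_mk φ a

theorem iota_injective (φ : Zb →+* k) : Function.Injective (iota φ) :=
  RingHom.kerLift_injective φ

theorem iota_comp_mk (φ : Zb →+* k) : (iota φ).comp (Ideal.Quotient.mk (RingHom.ker φ)) = φ :=
  RingHom.ext (fun a => iota_mk φ a)

end ker

/-- **packaged form**: `φ : ℤ̄ →+* k` (`k` a field of characteristic `p` prime) factors as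
`ℤ̄ ↠ k0 ↪ k` through an ALGEBRAICALLY CLOSED field `k0 : Type` of characteristic `p`. -/
theorem exists_residue_field {k : Type*} [Field k] {p : ℕ} (hp : p.Prime) [CharP k p]
    (φ : Zb →+* k) :
    ∃ (k0 : Type) (_ : Field k0) (_ : IsAlgClosed k0) (_ : CharP k0 p) (ψ : Zb →+* k0)
      (ι : k0 →+* k), Function.Surjective ψ ∧ ι.comp ψ = φ := by
  haveI hmax : (RingHom.ker φ).IsMaximal := ker_isMaximal hp φ
  exact ⟨Zb ⧸ RingHom.ker φ, Ideal.Quotient.field _, isAlgClosed_quotient _,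
    charP_quotient _ hp (natCast_mem_ker φ), Ideal.Quotient.mk _, iota φ,
    Ideal.Quotient.mk_surjective, iota_comp_mk φ⟩

/-- **packaged form for S42**: for a maximal ideal `𝔪 ∋ p` of `ℤ̄`, the quotient map to the
algebraically closed field `ℤ̄ ⧸ 𝔪` of characteristic `p`. -/
theorem exists_quotient_field (𝔪 : Ideal Zb) [𝔪.IsMaximal] {p : ℕ} (hp : p.Prime)
    (hp𝔪 : (p : Zb) ∈ 𝔪) :
    ∃ (K : Type) (_ : Field K) (_ : IsAlgClosed K) (_ : CharP K p) (ψ : Zb →+* K),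
      Function.Surjective ψ ∧ RingHom.ker ψ = 𝔪 :=
  ⟨Zb ⧸ 𝔪, Ideal.Quotient.field _, isAlgClosed_quotient _, charP_quotient _ hp hp𝔪,
    Ideal.Quotient.mk _, Ideal.Quotient.mk_surjective, Ideal.mk_ker⟩

end Fermat.Agent.S29.Alg.ResidueAlgClosed
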